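import Fermat.Agent.S32.Wiring
import Fermat.Agent.R.H2_SepTcFinal
import Fermat.Agent.R.Flat.H54_ClosureSub
import Fermat.Agent.R.Flat.H54_ClosureQuot
import Fermat.Agent.R.Flat.H54_ClosurePi

/-!
# S32 from `Stmt_FlatPoint` alone (helper86, cluster R)

All algebraic leaves of the wiring are proved (closure properties of flat Galois modules:
helper54; separation of the points of `T` with uniform loss: helper2).  What is left is
`Stmt_FlatPoint`: S32 for representations over complete discrete valuation rings (geometric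
input: S19, i.e. good reduction of `J₀(N)` at `p ∤ N`).
-/

set_option autoImplicit false

open Polynomial IsLocalRing

namespace Fermat.Agent.S32

open Fermat.Agent.R

variable {p : ℕ} {N : ℕ} [NeZero N] {S : Finset ℕ}
  {𝒪 : Type} [CommRing 𝒪] [IsDomain 𝒪] [IsDiscreteValuationRing 𝒪]
  [IsAdicComplete (IsLocalRing.maximalIdeal 𝒪) 𝒪]
  {θ : CuspForm.heckeAlgebra N 2 (↑S : Set ℕ) →+* IsLocalRing.ResidueField 𝒪}
  {T : Type} [CommRing T] [IsLocalRing T] [IsNoetherianRing T]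
  [IsAdicComplete (IsLocalRing.maximalIdeal T) T] [Algebra 𝒪 T] [IsLocalHom (algebraMap 𝒪 T)]
  [Module.Finite 𝒪 T] [Module.Free 𝒪 T]

/-- S32 from its version over discrete valuation rings. -/
theorem of_flatPoint (hFP : Stmt_FlatPoint)
    [Finite (IsLocalRing.ResidueField 𝒪)] [CharZero 𝒪]
    (hp : p.Prime) (hp2 : p ≠ 2) (hp𝒪 : (p : 𝒪) ∈ IsLocalRing.maximalIdeal 𝒪) (hpN : ¬ p ∣ N)
    (hpS : p ∈ S) (hNS : ∀ q : ℕ, q.Prime → q ∣ N → q ∈ S)
    (H : CuspForm.HeckeGaloisRepDatum N (↑S : Set ℕ) 𝒪 θ T) :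
    H.ρ.IsFlatAt p :=
  wiring hFP H54.stmt_FlatSub H54.stmt_FlatQuot H54.stmt_FlatPi H2.stmt_SepTc_final
    hp hp2 hp𝒪 hpN hpS hNS H

end Fermat.Agent.S32
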