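import Fermat.Agent.S30.H2_Step0
import Fermat.Agent.R.Transfer

/-!
# S32 bridge, part CH (helper86): every Galois element satisfies the characteristic polynomial
of `ρ` on the Tate piece

`ρ` a representation over a separated local ring `𝒪`, `ρ'` a continuous matrix representation
such that every Frobenius element `σ` at a prime `ℓ ∉ S` satisfies
`ρ'(σ)² - tr ρ(σ) ρ'(σ) + det ρ(σ) = 0`.  Then every `g` does (Frobenius density, Lucas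
sequences, separatedness).
-/

set_option autoImplicit false
set_option linter.unusedSectionVars false
set_option linter.unusedVariables false
set_option linter.style.haveILetI false

open Polynomial IsLocalRing

namespace Fermat.Agent.S32.H86

open Fermat.Agent.R Fermat.Agent.S30 Fermat.Agent.S30.H2 Fermat.Agent.R.H91

/-- **Cayley–Hamilton on the piece for all Galois elements.** -/
theorem ch_all (hFD : Stmt_FD) {𝒪 : Type} [CommRing 𝒪] [IsLocalRing 𝒪]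
    [IsHausdorff (maximalIdeal 𝒪) 𝒪]
    (ρ : GaloisRepAdic 𝒪) {d : ℕ} (ρ' : GQ →* Matrix (Fin d) (Fin d) 𝒪)
    (hcont : MatAdicCont ρ') (S : Finset ℕ)
    (hFrob : ∀ ℓ : ℕ, ℓ.Prime → ℓ ∉ S →
      ∀ A : ValuationSubring (AlgebraicClosure ℚ), A.LiesOverPrime ℓ →
        ∀ σ : GQ, A.IsFrobeniusAt σ ℓ →
          ρ' σ * ρ' σ - (LinearMap.trace 𝒪 ρ.V (ρ.ρ σ)) • ρ' σ
            + (LinearMap.det (ρ.ρ σ)) • (1 : Matrix (Fin d) (Fin d) 𝒪) = 0)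
    (g : GQ) :
    ρ' g * ρ' g - (LinearMap.trace 𝒪 ρ.V (ρ.ρ g)) • ρ' g
      + (LinearMap.det (ρ.ρ g)) • (1 : Matrix (Fin d) (Fin d) 𝒪) = 0 := by
  ext a b
  rw [Matrix.zero_apply]
  apply IsHausdorff.haus (I := maximalIdeal 𝒪) (M := 𝒪) inferInstance
  intro n
  rw [SModEq.sub_mem, sub_zero, smul_eq_mul, Ideal.mul_top]
  obtain ⟨L₁, hL₁, h₁⟩ := hcont n
  obtain ⟨L₂, hL₂, h₂⟩ := ρ.isAdicContinuous n
  haveI := hL₁
  haveI := hL₂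
  obtain ⟨ℓ, A, σ, j, hℓ, hℓS, hA, hσ, hσg⟩ := hFD S (L₁ ⊔ L₂) inferInstance g
  have hτ : ∀ x ∈ L₁ ⊔ L₂, (g⁻¹ * σ ^ j) x = x := by
    intro x hx
    rw [AlgEquiv.mul_apply, hσg x hx]
    exact (AlgEquiv.symm_apply_apply g x)
  have hτ₁ : ∀ x ∈ L₁, (g⁻¹ * σ ^ j) x = x := fun x hx => hτ x (le_sup_left (a := L₁) hx)
  have hτ₂ : ∀ x ∈ L₂, (g⁻¹ * σ ^ j) x = x := fun x hx => hτ x (le_sup_right (b := L₂) hx)
  have hσj : σ ^ j = g * (g⁻¹ * σ ^ j) := by rw [mul_inv_cancel_left]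
  set I := maximalIdeal 𝒪 ^ n with hI
  -- `ρ'(σ)^j ≡ ρ'(g)`
  have hρ1 : MatMem I (ρ' σ ^ j - ρ' g) := by
    have h3 : ρ' σ ^ j - ρ' g = ρ' g * (ρ' (g⁻¹ * σ ^ j) - 1) := by
      rw [mul_sub, mul_one, ← map_mul, ← hσj, map_pow]
    rw [h3]
    exact MatMem.mul_left (h₁ _ hτ₁) _
  -- `ρ(σ)^j ≡ ρ(g)`
  have hρ2 : ∀ v, (ρ.ρ σ ^ j) v - ρ.ρ g v ∈ I • (⊤ : Submodule 𝒪 ρ.V) := by
    intro v
    have h3 : (ρ.ρ σ ^ j) v - ρ.ρ g v = ρ.ρ g (ρ.ρ (g⁻¹ * σ ^ j) v - v) := by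
      rw [map_sub, ← Module.End.mul_apply, ← map_mul, ← hσj, map_pow]
    rw [h3]
    exact map_mem_smul_top I _ (h₂ _ hτ₂ v)
  obtain ⟨htr, hdet⟩ := trace_det_congr I (ρ.ρ σ ^ j) (ρ.ρ g) hρ2
  -- Lucas
  set t := LinearMap.trace 𝒪 ρ.V (ρ.ρ σ) with ht
  set δ := LinearMap.det (ρ.ρ σ) with hδ
  have hL := lucas_algebra (ρ' σ) t δ (hFrob ℓ hℓ hℓS A hA σ hσ) j
  have hch := charpoly_eq_of_finrank_two ρ.finrank_eq (ρ.ρ σ)
  have htrj : LinearMap.trace 𝒪 ρ.V (ρ.ρ σ ^ j) = lucasV t δ j :=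
    trace_pow_of_charpoly ρ.finrank_eq (ρ.ρ σ) hch j
  have hdetj : LinearMap.det (ρ.ρ σ ^ j) = δ ^ j := map_pow _ _ _
  rw [htrj] at htr
  rw [hdetj] at hdet
  set tg := LinearMap.trace 𝒪 ρ.V (ρ.ρ g) with htg
  set dg := LinearMap.det (ρ.ρ g) with hdg
  have hdecomp : ρ' g * ρ' g - tg • ρ' g + dg • (1 : Matrix (Fin d) (Fin d) 𝒪) =
      (lucasV t δ j • (ρ' σ ^ j - ρ' g) + (lucasV t δ j - tg) • ρ' g -
        (ρ' g * (ρ' σ ^ j - ρ' g) + (ρ' σ ^ j - ρ' g) * ρ' σ ^ j)) -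
        (δ ^ j - dg) • (1 : Matrix (Fin d) (Fin d) 𝒪) := by
    have hL' : ρ' σ ^ j * ρ' σ ^ j = lucasV t δ j • ρ' σ ^ j -
        (δ ^ j) • (1 : Matrix (Fin d) (Fin d) 𝒪) := by
      rw [eq_sub_iff_add_eq, ← sub_eq_zero, ← hL]
      abel
    rw [mul_sub, sub_mul, hL', smul_sub, sub_smul, sub_smul]
    abel
  rw [hdecomp]
  have hmem : MatMem I ((lucasV t δ j • (ρ' σ ^ j - ρ' g) + (lucasV t δ j - tg) • ρ' g -
        (ρ' g * (ρ' σ ^ j - ρ' g) + (ρ' σ ^ j - ρ' g) * ρ' σ ^ j)) -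
        (δ ^ j - dg) • (1 : Matrix (Fin d) (Fin d) 𝒪)) := by
    refine (((hρ1.smul _).add ?_).sub ((hρ1.mul_left _).add (hρ1.mul_right _))).sub
      (MatMem.smul_one hdet)
    have h5 : (lucasV t δ j - tg) • ρ' g =
        ((lucasV t δ j - tg) • (1 : Matrix (Fin d) (Fin d) 𝒪)) * ρ' g := by
      rw [Matrix.smul_mul, one_mul]
    rw [h5]
    exact (MatMem.smul_one htr).mul_right _
  exact hmem a b

end Fermat.Agent.S32.H86
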