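import Fermat.Agent.R.Flat.H54_ClosureQuot
import Fermat.Agent.R.Flat.H54_ClosurePi

/-!
# S32 bridge, part LEVEL (helper86): coefficients of a flat Galois module

If `(ℤ/p^n)^r` with the matrices `ρk σ` is a flat Galois module and `A` is a finite commutative
ring with a ring homomorphism `c : ℤ/p^n → A`, then `A^r` with the matrices `c (ρk σ)` is a flat
Galois module: it is an equivariant quotient of a finite product of copies of `(ℤ/p^n)^r`.
-/

set_option autoImplicit false
set_option linter.unusedSectionVars false
set_option linter.unusedVariables false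
set_option linter.style.haveILetI false

noncomputable section

namespace Fermat.Agent.S32.H86

open Fermat.Agent.R

/-- **Change of coefficients for flat Galois modules.** -/
theorem level_flat {p : ℕ} (hp : p.Prime) {r n : ℕ}
    (ρk : (AlgebraicClosure ℚ ≃ₐ[ℚ] AlgebraicClosure ℚ) →* Matrix (Fin r) (Fin r) (ZMod (p ^ n)))
    (hflat : IsFlatGaloisModule p (Fin r → ZMod (p ^ n)) (fun σ v => (ρk σ).mulVec v))
    (A : Type) [CommRing A] [Finite A] (c : ZMod (p ^ n) →+* A) :
    IsFlatGaloisModule p (Fin r → A) (fun σ y => (c.mapMatrix (ρk σ)).mulVec y) := by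
  classical
  obtain ⟨m, ⟨a⟩⟩ := Finite.exists_equiv_fin A
  have hPi := H54.stmt_FlatPi p hp m (fun _ => Fin r → ZMod (p ^ n))
    (fun _ σ v => (ρk σ).mulVec v) (fun _ => hflat)
  let Ψ : (Fin m → Fin r → ZMod (p ^ n)) →+ (Fin r → A) :=
    { toFun := fun v i => ∑ t, a.symm t * c (v t i)
      map_zero' := by
        funext i
        simp
      map_add' := fun v w => by
        funext i
        simp only [Pi.add_apply, map_add, mul_add, Finset.sum_add_distrib] }
  have hΨ : ∀ v i, Ψ v i = ∑ t, a.symm t * c (v t i) := fun v i => rfl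
  refine H54.stmt_FlatQuot p hp (Fin m → Fin r → ZMod (p ^ n)) (Fin r → A) _ _ Ψ ?_ ?_ hPi
  · intro y
    refine ⟨fun t i => if a.symm t = y i then 1 else 0, ?_⟩
    funext i
    rw [hΨ]
    rw [Finset.sum_eq_single (a (y i))]
    · simp
    · intro t _ ht
      have h1 : a.symm t ≠ y i := by
        intro h
        apply ht
        rw [← h, Equiv.apply_symm_apply]
      simp [h1]
    · intro h
      exact absurd (Finset.mem_univ _) h
  · intro σ v
    funext i
    show ∑ t, a.symm t * c ((ρk σ).mulVec (v t) i) = ((c.mapMatrix (ρk σ)).mulVec (Ψ v)) i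
    simp only [Matrix.mulVec, dotProduct, map_sum, map_mul, RingHom.mapMatrix_apply,
      Matrix.map_apply, hΨ, Finset.mul_sum]
    rw [Finset.sum_comm]
    refine Finset.sum_congr rfl fun j _ => Finset.sum_congr rfl fun t _ => ?_
    ring

end Fermat.Agent.S32.H86

end
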