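import Fermat.Agent.S32.H86_BridgeAlg
import Fermat.Agent.S32.H86_BridgeCH
import Fermat.Agent.S32.H86_BridgeLevel
import Fermat.Agent.GTor.H81_Clauses
import Fermat.Agent.GTor.H81_Uncond
import Fermat.Agent.R.H33_TatePiece
import Fermat.Agent.Lib.FrobDensity.Main
import Fermat.Agent.S32.Final

/-!
# S32 bridge (helper86): frozen S19 ⟹ `Stmt_FlatPoint` ⟹ frozen S32

`Stmt_S19` is the type of the frozen statement S19 (`J₀(N)[ℓ^k]` is the group of `ℚ̄`-points of a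
finite flat group scheme over `ℤ_(ℓ)`, `ℓ ∤ N`).

* `jtor_flat`, `tate_flat` : the levels `(ℤ/p^k)^r` of helper81's coordinatised Tate system are
  flat Galois modules.
* `stmt_FlatPoint_of_S19 : Stmt_S19 → Stmt_FlatPoint`.
* `of_S19` : frozen S32 from `Stmt_S19`.
-/

set_option autoImplicit false
set_option linter.unusedSectionVars false
set_option linter.unusedVariables false
set_option linter.style.haveILetI false

open Polynomial IsLocalRing

noncomputable section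

namespace Fermat.Agent.S32.H86

open Fermat.Agent.R Fermat.Agent.GTor Fermat.Agent.GTor.H81 Fermat.Agent.GTor.H58T1
open AlgebraicCurve ModularCurve

/-- The type of the frozen statement S19. -/
def Stmt_S19 : Prop :=
  ∀ (p : ℕ) [NeZero p] (ℓ : ℕ) [Fact ℓ.Prime] (_hℓp : ¬ ℓ ∣ p) (k : ℕ),
    ∃ (H : Type) (_ : CommRing H) (_ : HopfAlgebra (GaloisRep.ratLocalizedAt ℓ) H),
      Module.Finite (GaloisRep.ratLocalizedAt ℓ) H ∧ Module.Flat (GaloisRep.ratLocalizedAt ℓ) H ∧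
      Coalgebra.IsCocomm (GaloisRep.ratLocalizedAt ℓ) H ∧
      ∃ e : WithConv (H →ₐ[GaloisRep.ratLocalizedAt ℓ] AlgebraicClosure ℚ) ≃
          ↥(Submodule.torsionBy ℤ (JZero p) ((ℓ : ℤ) ^ k)),
        (∀ f g, e (f * g) = e f + e g) ∧
        ∀ (σ : AlgebraicClosure ℚ ≃ₐ[ℚ] AlgebraicClosure ℚ)
          (f g : WithConv (H →ₐ[GaloisRep.ratLocalizedAt ℓ] AlgebraicClosure ℚ)),
          (∀ h : H, g h = σ (f h)) → ((e g : JZero p)) = σ • (e f : JZero p)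

/-- `J₀(N)[p^k]`, in helper81's form, is a flat Galois module. -/
theorem jtor_flat (hS19 : Stmt_S19) (N : ℕ) [NeZero N] (p : ℕ) [Fact p.Prime] (hpN : ¬ p ∣ N)
    (k : ℕ) :
    IsFlatGaloisModule p (Jtor N (p ^ k)) (fun σ x => JZero.torsionGaloisRep N (p ^ k) σ x) := by
  obtain ⟨H, i1, i2, h1, h2, h3, e, hmul, hact⟩ := hS19 N p hpN k
  have hcast : (((p ^ k : ℕ) : ℕ) : ℤ) = (p : ℤ) ^ k := by push_cast; rfl
  let φ : ↥(Submodule.torsionBy ℤ (JZero N) ((p : ℤ) ^ k)) ≃ Jtor N (p ^ k) :=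
    { toFun := fun x => ⟨x.1, by
        show x.1 ∈ Pic0.torsion (AlgebraicClosure ℚ) (modularFunctionFieldBar N) (p ^ k)
        rw [Pic0.mem_torsion, hcast]
        exact (Submodule.mem_torsionBy_iff _ _).mp x.2⟩
      invFun := fun x => ⟨x.1, by
        rw [Submodule.mem_torsionBy_iff, ← hcast]
        exact Pic0.mem_torsion.mp x.2⟩
      left_inv := fun x => rfl
      right_inv := fun x => rfl }
  refine ⟨H, i1, i2, h1, h2, h3, e.trans φ, ?_, ?_⟩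
  · intro f g
    apply Subtype.ext
    show ((e (f * g) : ↥(Submodule.torsionBy ℤ (JZero N) ((p : ℤ) ^ k))) : JZero N) =
      ((e f : ↥(Submodule.torsionBy ℤ (JZero N) ((p : ℤ) ^ k))) : JZero N) +
        ((e g : ↥(Submodule.torsionBy ℤ (JZero N) ((p : ℤ) ^ k))) : JZero N)
    rw [hmul]
    rfl
  · intro σ f g hfg
    apply Subtype.ext
    rw [JZero.coe_torsionGaloisRep_apply]
    exact hact σ f g hfg

/-- The levels of the coordinatised Tate system are flat Galois modules. -/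
theorem tate_flat (hS19 : Stmt_S19) {N : ℕ} [NeZero N] {p : ℕ} [Fact p.Prime] (hpN : ¬ p ∣ N)
    {S : Set ℕ} (C : TateCoords N p S) (k : ℕ) :
    IsFlatGaloisModule p (Fin C.r → ZMod (p ^ k)) (fun σ v => (C.ρ k σ).mulVec v) := by
  have hp : p.Prime := Fact.out
  refine H54.stmt_FlatQuot p hp (Jtor N (p ^ k)) (Fin C.r → ZMod (p ^ k))
    (fun σ x => JZero.torsionGaloisRep N (p ^ k) σ x) _ (C.θ k).toAddMonoidHom
    (C.θ k).surjective (fun σ x => C.gal k σ x) (jtor_flat hS19 N p hpN k)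

/-- In rank 2 the characteristic polynomial gives trace and determinant. -/
theorem trace_det_of_charpoly {A : Type} [CommRing A] {V : Type} [AddCommGroup V] [Module A V]
    [Module.Free A V] [Module.Finite A V] (hV : Module.finrank A V = 2) (f : Module.End A V)
    {t d : A} (h : f.charpoly = X ^ 2 - C t * X + C d) :
    LinearMap.trace A V f = t ∧ LinearMap.det f = d := by
  rw [H91.charpoly_eq_of_finrank_two hV f] at h
  have h0 := congrArg (fun q : A[X] => q.coeff 0) h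
  have h1 := congrArg (fun q : A[X] => q.coeff 1) h
  simp only [coeff_add, coeff_sub, coeff_X_pow, coeff_C_mul, coeff_X_zero, coeff_X_one,
    coeff_C_zero, coeff_C_succ, mul_zero, mul_one, sub_zero, add_zero] at h0 h1
  norm_num at h0 h1
  exact ⟨h1, h0⟩

/-- **The bridge**: frozen S19 implies S32 over discrete valuation rings. -/
theorem stmt_FlatPoint_of_S19 (hS19 : Stmt_S19) : Stmt_FlatPoint := by
  intro p N _ S 𝒪 _ _ _ _ _ _ hp hp2 hp𝒪 hpN hpS hNS χ ρ hρ habs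
  haveI : Fact p.Prime := ⟨hp⟩
  have hNS' : ∀ q : ℕ, q.Prime → q ∣ N → q ∈ (↑S : Set ℕ) := fun q hq hqN => by
    exact_mod_cast hNS q hq hqN
  obtain ⟨C⟩ := tateCoords N p (↑S : Set ℕ) hp hNS'
  obtain ⟨L⟩ := exists_tateLimit C 𝒪 hp𝒪
  obtain ⟨Pc, hPc⟩ := exists_piece_eig L χ
  have hES : Stmt_TorsES N p := torsES_of_red hp (Fermat.Agent.R.H33.allRed N p)
  -- the Frobenius relation on the piece
  have hFrob : ∀ ℓ : ℕ, ℓ.Prime → ℓ ∉ S →
      ∀ A : ValuationSubring (AlgebraicClosure ℚ), A.LiesOverPrime ℓ →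
        ∀ σ : Fermat.Agent.S30.GQ, A.IsFrobeniusAt σ ℓ →
          Pc.rep σ * Pc.rep σ - (LinearMap.trace 𝒪 ρ.V (ρ.ρ σ)) • Pc.rep σ
            + (LinearMap.det (ρ.ρ σ)) • (1 : Matrix (Fin Pc.d) (Fin Pc.d) 𝒪) = 0 := by
    intro ℓ hℓ hℓS A hA σ hσ
    have hℓN : ¬ ℓ ∣ N := fun h => hℓS (hNS ℓ hℓ h)
    have hℓp : ℓ ≠ p := by
      rintro rfl
      exact hℓS hpS
    have hℓS' : ℓ ∉ (↑S : Set ℕ) := by exact_mod_cast hℓS
    have h1 := piece_ES L Pc hES hℓ hℓN hℓp hℓS' (χ (CuspForm.heckeAlgebra.T hℓ hℓN hℓS'))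
      (hPc _) A hA σ hσ
    obtain ⟨htr, hdet⟩ := trace_det_of_charpoly ρ.finrank_eq (ρ.ρ σ) (hρ ℓ hℓ hℓN hℓS' A hA σ hσ)
    rw [htr, hdet]
    exact h1
  have hCH := ch_all Fermat.Agent.Lib.FrobDensity.stmt_FD ρ Pc.rep (L.cont_piece Pc) S hFrob
  -- flatness of the levels
  have hlev : ∀ I : Ideal 𝒪, Finite (𝒪 ⧸ I) →
      IsFlatGaloisModule p (Fin C.r → 𝒪 ⧸ I)
        (fun σ y => ((Ideal.Quotient.mk I).mapMatrix (L.ρL σ)).mulVec y) := by
    intro I hI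
    have hI0 : I ≠ ⊥ := by
      rintro rfl
      haveI : Infinite 𝒪 := Infinite.of_injective (fun n : ℕ => (n : 𝒪)) Nat.cast_injective
      exact not_finite (𝒪 ⧸ (⊥ : Ideal 𝒪)) |>.elim
    obtain ⟨ϖ, hϖ⟩ := IsDiscreteValuationRing.exists_irreducible 𝒪
    obtain ⟨n, hn⟩ := IsDiscreteValuationRing.ideal_eq_span_pow_irreducible hI0 hϖ
    have hIn : I = maximalIdeal 𝒪 ^ n := by
      rw [hn, hϖ.maximalIdeal_eq, Ideal.span_singleton_pow]
    subst hIn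
    have h1 := level_flat hp (C.ρ n) (tate_flat hS19 hpN C n) (𝒪 ⧸ maximalIdeal 𝒪 ^ n)
      (cK (maximalIdeal 𝒪) p hp𝒪 n)
    have h2 : (fun (σ : AlgebraicClosure ℚ ≃ₐ[ℚ] AlgebraicClosure ℚ)
        (y : Fin C.r → 𝒪 ⧸ maximalIdeal 𝒪 ^ n) =>
          ((Ideal.Quotient.mk (maximalIdeal 𝒪 ^ n)).mapMatrix (L.ρL σ)).mulVec y) =
        (fun σ y => ((cK (maximalIdeal 𝒪) p hp𝒪 n).mapMatrix (C.ρ n σ)).mulVec y) := by
      funext σ y
      have h3 := L.spec σ n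
      rw [← h3]
    rw [h2]
    exact h1
  exact flat_of_piece hp ρ habs Pc.pos L.ρL Pc.P Pc.Q Pc.QP Pc.rep (fun σ => Pc.rel_rep σ) hCH
    hlev

section Frozen

variable {p : ℕ} {N : ℕ} [NeZero N] {S : Finset ℕ}
  {𝒪 : Type} [CommRing 𝒪] [IsDomain 𝒪] [IsDiscreteValuationRing 𝒪]
  [IsAdicComplete (IsLocalRing.maximalIdeal 𝒪) 𝒪]
  {θ : CuspForm.heckeAlgebra N 2 (↑S : Set ℕ) →+* IsLocalRing.ResidueField 𝒪}
  {T : Type} [CommRing T] [IsLocalRing T] [IsNoetherianRing T]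
  [IsAdicComplete (IsLocalRing.maximalIdeal T) T] [Algebra 𝒪 T] [IsLocalHom (algebraMap 𝒪 T)]
  [Module.Finite 𝒪 T] [Module.Free 𝒪 T]

/-- **Frozen S32 from frozen S19.** -/
theorem of_S19 (hS19 : Stmt_S19)
    [Finite (IsLocalRing.ResidueField 𝒪)] [CharZero 𝒪]
    (hp : p.Prime) (hp2 : p ≠ 2) (hp𝒪 : (p : 𝒪) ∈ IsLocalRing.maximalIdeal 𝒪) (hpN : ¬ p ∣ N)
    (hpS : p ∈ S) (hNS : ∀ q : ℕ, q.Prime → q ∣ N → q ∈ S)
    (H : CuspForm.HeckeGaloisRepDatum N (↑S : Set ℕ) 𝒪 θ T) :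
    H.ρ.IsFlatAt p :=
  Fermat.Agent.S32.of_flatPoint (stmt_FlatPoint_of_S19 hS19) hp hp2 hp𝒪 hpN hpS hNS H

end Frozen

end Fermat.Agent.S32.H86

end
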