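import Mathlib

/-!
# Boston–Lenstra–Ribet over a commutative ring, and split embeddings of the standard module
(helper86, S32 bridge)

* `exists_algHom` : helper19's proof of the theorem of Boston–Lenstra–Ribet
  (`Fermat/Agent/L/H19_BLR.lean`, written there for fields) over an arbitrary commutative ring
  `k`: if the matrices `M g` span `M₂(k)` and every `π g` satisfies the characteristic polynomial
  of `M g`, then `π` factors through `M`.
* `exists_split_embedding` : a non-zero finite free module `X` over a local ring `k` with an action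
  of `M₂(k)` contains the standard module `k²` as a direct summand (equivariantly).
-/

set_option autoImplicit false
set_option linter.unusedSectionVars false
set_option linter.unusedVariables false

namespace Fermat.Agent.S32.H86BLR

open Matrix

variable {G k B : Type*} [Group G] [CommRing k] [Ring B] [Algebra k B]

/-! ### Identities for `2 × 2` matrices -/

lemma det_add_fin_two (m m' : Matrix (Fin 2) (Fin 2) k) :
    (m + m').det = m.det + m'.det + (m.trace * m'.trace - (m * m').trace) := by
  simp only [Matrix.det_fin_two, Matrix.trace_fin_two, Matrix.mul_apply, Fin.sum_univ_two,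
    Matrix.add_apply]
  ring

lemma det_smul_fin_two (c : k) (m : Matrix (Fin 2) (Fin 2) k) :
    (c • m).det = c ^ 2 * m.det := by
  simp only [Matrix.det_fin_two, Matrix.smul_apply, smul_eq_mul]
  ring

/-! ### The graph span -/

/-- The span of the pairs `(M g, π g)`. -/
def graphSpan (M : G →* Matrix (Fin 2) (Fin 2) k) (π : G →* B) :
    Submodule k (Matrix (Fin 2) (Fin 2) k × B) :=
  Submodule.span k (Set.range fun g => (M g, π g))

variable {M : G →* Matrix (Fin 2) (Fin 2) k} {π : G →* B}

lemma gen_mem (g : G) : (M g, π g) ∈ graphSpan M π :=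
  Submodule.subset_span ⟨g, rfl⟩

lemma one_mem_graphSpan : ((1 : Matrix (Fin 2) (Fin 2) k), (1 : B)) ∈ graphSpan M π := by
  have := gen_mem (M := M) (π := π) 1
  simpa using this

lemma mul_mem_graphSpan {r s : Matrix (Fin 2) (Fin 2) k × B} (hr : r ∈ graphSpan M π)
    (hs : s ∈ graphSpan M π) : (r.1 * s.1, r.2 * s.2) ∈ graphSpan M π := by
  induction hr using Submodule.span_induction with
  | mem r hr =>
    obtain ⟨g, rfl⟩ := hr
    induction hs using Submodule.span_induction with
    | mem s hs =>
      obtain ⟨h, rfl⟩ := hs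
      have := gen_mem (M := M) (π := π) (g * h)
      simpa using this
    | zero =>
      simp only [Prod.fst_zero, Prod.snd_zero, mul_zero]
      exact Submodule.zero_mem _
    | add s s' _ _ ih ih' =>
      have := Submodule.add_mem _ ih ih'
      simpa [mul_add] using this
    | smul c s _ ih =>
      have := Submodule.smul_mem _ c ih
      simpa using this
  | zero =>
    simp only [Prod.fst_zero, Prod.snd_zero, zero_mul]
    exact Submodule.zero_mem _
  | add r r' _ _ ih ih' =>
    have := Submodule.add_mem _ ih ih'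
    simpa [add_mul] using this
  | smul c r _ ih =>
    have := Submodule.smul_mem _ c ih
    simpa using this


/-! ### The polarised Cayley–Hamilton identity -/

section CH

variable (hCH : ∀ g, π g * π g - (M g).trace • π g + (M g).det • (1 : B) = 0)
include hCH

/-- `det(g) π(g⁻¹) = tr(g) - π(g)`. -/
lemma adj_rel (g : G) : (M g).det • π g⁻¹ = (M g).trace • (1 : B) - π g := by
  have h := hCH g
  have h1 : (π g * π g - (M g).trace • π g + (M g).det • (1 : B)) * π g⁻¹ = 0 := by
    rw [h, zero_mul]
  have h2 : π g * π g⁻¹ = 1 := by rw [← map_mul, mul_inv_cancel, map_one]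
  rw [add_mul, sub_mul, mul_assoc, h2, mul_one, smul_mul_assoc, h2, smul_mul_assoc, one_mul] at h1
  calc (M g).det • π g⁻¹
      = (π g - (M g).trace • (1 : B) + (M g).det • π g⁻¹) - (π g - (M g).trace • (1 : B)) := by
        abel
    _ = (M g).trace • (1 : B) - π g := by rw [h1]; abel

/-- The polarised identity on generators. -/
lemma dagger_gen (g h : G) :
    π g * π h + π h * π g - (M g).trace • π h - (M h).trace • π g
      + ((M g).trace * (M h).trace - (M g * M h).trace) • (1 : B) = 0 := by
  have hg := adj_rel hCH g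
  have hh := adj_rel hCH h
  have hgh := adj_rel hCH (g * h)
  have e1 : (M (g * h)).det • π (g * h)⁻¹ = ((M h).det • π h⁻¹) * ((M g).det • π g⁻¹) := by
    rw [_root_.mul_inv_rev, map_mul, map_mul, Matrix.det_mul, smul_mul_smul_comm, mul_comm (M h).det]
  rw [e1, hg, hh, map_mul, map_mul] at hgh
  have e2 : ((M h).trace • (1 : B) - π h) * ((M g).trace • (1 : B) - π g)
      = ((M g).trace * (M h).trace) • (1 : B) - (M h).trace • π g - (M g).trace • π h
        + π h * π g := by
    rw [sub_mul, mul_sub, mul_sub, smul_mul_smul_comm, mul_one, smul_mul_assoc, one_mul,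
      mul_smul_comm, mul_one, mul_comm (M h).trace]
    abel
  rw [e2] at hgh
  have := sub_eq_zero.mpr hgh
  rw [← this]
  module

/-- The defect of the polarised Cayley–Hamilton identity. -/
def Dg (r s : Matrix (Fin 2) (Fin 2) k × B) : B :=
  r.2 * s.2 + s.2 * r.2 - r.1.trace • s.2 - s.1.trace • r.2
    + (r.1.trace * s.1.trace - (r.1 * s.1).trace) • (1 : B)

omit hCH in
lemma Dg_add_left (r r' s : Matrix (Fin 2) (Fin 2) k × B) :
    Dg (r + r') s = Dg r s + Dg r' s := by
  simp only [Dg, Prod.fst_add, Prod.snd_add, add_mul, mul_add, Matrix.trace_add]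
  module

omit hCH in
lemma Dg_add_right (r s s' : Matrix (Fin 2) (Fin 2) k × B) :
    Dg r (s + s') = Dg r s + Dg r s' := by
  simp only [Dg, Prod.fst_add, Prod.snd_add, add_mul, mul_add, Matrix.trace_add]
  module

omit hCH in
lemma Dg_smul_left (c : k) (r s : Matrix (Fin 2) (Fin 2) k × B) :
    Dg (c • r) s = c • Dg r s := by
  simp only [Dg, Prod.smul_fst, Prod.smul_snd, Matrix.trace_smul, smul_mul_assoc,
    mul_smul_comm, smul_eq_mul]
  module

omit hCH in
lemma Dg_smul_right (c : k) (r s : Matrix (Fin 2) (Fin 2) k × B) :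
    Dg r (c • s) = c • Dg r s := by
  simp only [Dg, Prod.smul_fst, Prod.smul_snd, Matrix.trace_smul, smul_mul_assoc,
    mul_smul_comm, smul_eq_mul]
  module

omit hCH in
lemma Dg_zero_left (s : Matrix (Fin 2) (Fin 2) k × B) : Dg 0 s = 0 := by
  simp [Dg]

omit hCH in
lemma Dg_zero_right (r : Matrix (Fin 2) (Fin 2) k × B) : Dg r 0 = 0 := by
  simp [Dg]

/-- The polarised Cayley–Hamilton identity on the graph span. -/
lemma dagger {r s : Matrix (Fin 2) (Fin 2) k × B} (hr : r ∈ graphSpan M π)
    (hs : s ∈ graphSpan M π) : Dg r s = 0 := by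
  induction hr using Submodule.span_induction with
  | mem r hr =>
    obtain ⟨g, rfl⟩ := hr
    induction hs using Submodule.span_induction with
    | mem s hs =>
      obtain ⟨h, rfl⟩ := hs
      exact dagger_gen hCH g h
    | zero => exact Dg_zero_right _
    | add s s' _ _ ih ih' => rw [Dg_add_right, ih, ih', add_zero]
    | smul c s _ ih => rw [Dg_smul_right, ih, smul_zero]
  | zero => exact Dg_zero_left _
  | add r r' _ _ ih ih' => rw [Dg_add_left, ih, ih', add_zero]
  | smul c r _ ih => rw [Dg_smul_left, ih, smul_zero]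

/-- The quadratic identity on the graph span. -/
lemma quad {r : Matrix (Fin 2) (Fin 2) k × B} (hr : r ∈ graphSpan M π) :
    r.2 * r.2 - r.1.trace • r.2 + r.1.det • (1 : B) = 0 := by
  induction hr using Submodule.span_induction with
  | mem r hr =>
    obtain ⟨g, rfl⟩ := hr
    exact hCH g
  | zero => simp
  | add r s hr hs ih ih' =>
    have hd := dagger hCH hr hs
    simp only [Dg] at hd
    simp only [Prod.fst_add, Prod.snd_add, add_mul, mul_add, Matrix.trace_add, det_add_fin_two]
    have e : r.2 * r.2 + s.2 * r.2 + (r.2 * s.2 + s.2 * s.2) - (r.1.trace + s.1.trace) • (r.2 + s.2)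
        + (r.1.det + s.1.det + (r.1.trace * s.1.trace - (r.1 * s.1).trace)) • (1 : B)
        = (r.2 * r.2 - r.1.trace • r.2 + r.1.det • (1 : B))
          + (s.2 * s.2 - s.1.trace • s.2 + s.1.det • (1 : B))
          + (r.2 * s.2 + s.2 * r.2 - r.1.trace • s.2 - s.1.trace • r.2
            + (r.1.trace * s.1.trace - (r.1 * s.1).trace) • (1 : B)) := by
      module
    rw [e, ih, ih', hd]
    simp
  | smul c r _ ih =>
    simp only [Prod.smul_fst, Prod.smul_snd, Matrix.trace_smul, smul_mul_assoc,
      mul_smul_comm, smul_eq_mul, det_smul_fin_two]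
    have e : c • c • (r.2 * r.2) - (c * r.1.trace) • c • r.2 + (c ^ 2 * r.1.det) • (1 : B)
        = (c ^ 2) • (r.2 * r.2 - r.1.trace • r.2 + r.1.det • (1 : B)) := by
      module
    rw [e, ih, smul_zero]

/-- Key step: an element of the graph span with vanishing matrix component vanishes, as soon
as the graph span contains lifts of `E₁₂` and `E₂₁`. -/
lemma snd_eq_zero_of_fst_eq_zero {x y z : Matrix (Fin 2) (Fin 2) k × B}
    (hx : x ∈ graphSpan M π) (hy : y ∈ graphSpan M π) (hz : z ∈ graphSpan M π)
    (hx1 : x.1 = 0) (hty : y.1.trace = 0) (htz : z.1.trace = 0)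
    (htyz : (y.1 * z.1).trace = 1) (hdyz : (y.1 * z.1).det = 0) : x.2 = 0 := by
  have hyz := mul_mem_graphSpan hy hz
  -- `x y = - y x`, `x z = - z x`, `x (y z) + (y z) x = x`
  have h1 := dagger hCH hx hy
  have h2 := dagger hCH hx hz
  have h3 := dagger hCH hx hyz
  simp only [Dg, hx1, hty, htz, htyz, Matrix.trace_zero, zero_mul, zero_smul, sub_zero,
    mul_zero, add_zero, one_smul] at h1 h2 h3
  have hq := quad hCH hyz
  simp only [htyz, hdyz, one_smul, zero_smul, add_zero] at hq
  -- `e = y z` is an idempotent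
  set e : B := y.2 * z.2 with he
  have he2 : e * e = e := sub_eq_zero.mp hq
  have hxy : x.2 * y.2 = - (y.2 * x.2) := eq_neg_of_add_eq_zero_left h1
  have hxz : x.2 * z.2 = - (z.2 * x.2) := eq_neg_of_add_eq_zero_left h2
  have hxe : x.2 * e = e * x.2 := by
    rw [he, ← mul_assoc, hxy, neg_mul, mul_assoc, hxz, mul_neg, neg_neg, mul_assoc]
  have h4 : e * x.2 + e * x.2 = x.2 := by
    rw [hxe] at h3
    exact sub_eq_zero.mp h3
  have h5 : e * x.2 = 0 := by
    have := congrArg (fun t => e * t) h4
    simp only [mul_add, ← mul_assoc, he2] at this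
    exact add_eq_right.mp this |>.symm ▸ rfl
  rw [← h4, h5, add_zero]

end CH

/-! ### The algebra homomorphism -/

section AlgHom

variable (hspan : Submodule.span k (Set.range M) = ⊤)
  (hCH : ∀ g, π g * π g - (M g).trace • π g + (M g).det • (1 : B) = 0)

include hspan in
lemma exists_lift (π : G →* B) (m : Matrix (Fin 2) (Fin 2) k) :
    ∃ b : B, (m, b) ∈ graphSpan M π := by
  have h : m ∈ Submodule.map (LinearMap.fst k (Matrix (Fin 2) (Fin 2) k) B) (graphSpan M π) := by
    rw [graphSpan, Submodule.map_span, ← Set.range_comp]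
    have e : (⇑(LinearMap.fst k (Matrix (Fin 2) (Fin 2) k) B) ∘ fun g => (M g, π g)) = ⇑M := rfl
    rw [e, hspan]
    trivial
  obtain ⟨⟨m', b⟩, h, rfl⟩ := h
  exact ⟨b, h⟩

include hspan hCH in
/-- The graph span is the graph of a function. -/
lemma graph_unique {m : Matrix (Fin 2) (Fin 2) k} {b b' : B}
    (h : (m, b) ∈ graphSpan M π) (h' : (m, b') ∈ graphSpan M π) : b = b' := by
  obtain ⟨by', hy⟩ := exists_lift hspan π (Matrix.single (0 : Fin 2) (1 : Fin 2) (1 : k))
  obtain ⟨bz, hz⟩ := exists_lift hspan π (Matrix.single (1 : Fin 2) (0 : Fin 2) (1 : k))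
  have hx : ((0 : Matrix (Fin 2) (Fin 2) k), b - b') ∈ graphSpan M π := by
    have := Submodule.sub_mem _ h h'
    simpa using this
  have := snd_eq_zero_of_fst_eq_zero hCH hx hy hz rfl
    (by simp) (by simp) (by simp) (by simp [Matrix.det_fin_two])
  exact sub_eq_zero.mp this

include hspan hCH in
/-- **Boston–Lenstra–Ribet**: `π` factors through `M`. -/
theorem exists_algHom :
    ∃ Φ : Matrix (Fin 2) (Fin 2) k →ₐ[k] B, ∀ g, Φ (M g) = π g := by
  choose φ hφ using exists_lift hspan π
  have huniq : ∀ {m : Matrix (Fin 2) (Fin 2) k} {b : B}, (m, b) ∈ graphSpan M π → φ m = b :=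
    fun h => graph_unique hspan hCH (hφ _) h
  let L : Matrix (Fin 2) (Fin 2) k →ₗ[k] B :=
    { toFun := φ
      map_add' := fun m m' => huniq (by
        have := Submodule.add_mem _ (hφ m) (hφ m')
        simpa using this)
      map_smul' := fun c m => huniq (by
        have := Submodule.smul_mem _ c (hφ m)
        simpa using this) }
  refine ⟨AlgHom.ofLinearMap L (huniq one_mem_graphSpan) (fun m m' => huniq ?_),
    fun g => huniq (gen_mem g)⟩
  exact mul_mem_graphSpan (hφ m) (hφ m')

end AlgHom


/-! ### Modules over `M₂(k)`, `k` local -/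

/-- A non-zero finite free module over a local ring `k` with an action of `M₂(k)` contains the
standard module `k²` as an equivariant direct summand. -/
theorem exists_split_embedding {k : Type*} [CommRing k] [IsLocalRing k]
    {X : Type*} [AddCommGroup X] [Module k X] [Module.Free k X] [Module.Finite k X]
    [Nontrivial X] (Φ : Matrix (Fin 2) (Fin 2) k →ₐ[k] Module.End k X) :
    ∃ (f : (Fin 2 → k) →ₗ[k] X) (r : X →ₗ[k] (Fin 2 → k)),
      (∀ v, r (f v) = v) ∧
      ∀ (A : Matrix (Fin 2) (Fin 2) k) (v : Fin 2 → k), f (A.mulVec v) = Φ A (f v) := by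
  classical
  let e : Fin 2 → Fin 2 → k := fun i => Pi.single i 1
  let E : Fin 2 → Matrix (Fin 2) (Fin 2) k := fun i => Matrix.vecMulVec (e i) (e i)
  have hsum : E 0 + E 1 = 1 := by
    ext a c
    fin_cases a <;> fin_cases c <;> simp [E, e, Matrix.vecMulVec_apply]
  have hidem : ∀ i, E i * E i = E i := by
    intro i
    simp only [E, Matrix.vecMulVec_mul_vecMulVec]
    congr 1
    simp [e]
  let b := Module.Free.chooseBasis k X
  obtain ⟨i₀⟩ : Nonempty (Module.Free.ChooseBasisIndex k X) := b.index_nonempty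
  -- a unimodular vector in the image of some `E j`
  have hone : b.repr (Φ (E 0) (b i₀)) i₀ + b.repr (Φ (E 1) (b i₀)) i₀ = 1 := by
    rw [← Finsupp.add_apply, ← map_add, ← LinearMap.add_apply, ← map_add, hsum, map_one]
    simp
  have hex : ∃ j : Fin 2, IsUnit (b.repr (Φ (E j) (b i₀)) i₀) := by
    rcases IsLocalRing.isUnit_or_isUnit_of_add_one hone with h | h
    · exact ⟨0, h⟩
    · exact ⟨1, h⟩
  obtain ⟨j, hj⟩ := hex
  obtain ⟨u, hu⟩ := hj
  set w : X := Φ (E j) (b i₀) with hw
  have hEw : Φ (E j) w = w := by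
    rw [hw, ← Module.End.mul_apply, ← map_mul, hidem]
  obtain ⟨lam, hlam⟩ : ∃ lam : X →ₗ[k] k, lam w = 1 := by
    refine ⟨(↑u⁻¹ : k) • (b.coord i₀), ?_⟩
    show (↑u⁻¹ : k) • (b.coord i₀ w) = 1
    rw [Module.Basis.coord_apply, ← hu, smul_eq_mul, Units.inv_mul]
  let f : (Fin 2 → k) →ₗ[k] X :=
    { toFun := fun v => Φ (Matrix.vecMulVec v (e j)) w
      map_add' := fun v v' => by
        rw [Matrix.add_vecMulVec, map_add, LinearMap.add_apply]
      map_smul' := fun c v => by
        rw [Matrix.smul_vecMulVec, map_smul, LinearMap.smul_apply, RingHom.id_apply] }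
  have hf : ∀ v, f v = Φ (Matrix.vecMulVec v (e j)) w := fun v => rfl
  let r : X →ₗ[k] (Fin 2 → k) :=
    LinearMap.pi fun a => lam ∘ₗ (Φ (Matrix.vecMulVec (e j) (e a)))
  have hr : ∀ x a, r x a = lam (Φ (Matrix.vecMulVec (e j) (e a)) x) := fun x a => rfl
  refine ⟨f, r, fun v => ?_, fun A v => ?_⟩
  · funext a
    have h1 : e a ⬝ᵥ v = v a := by
      simp [e, dotProduct, Pi.single_apply]
    have h2 : Matrix.vecMulVec (e j) (e a) * Matrix.vecMulVec v (e j) = v a • E j := by
      rw [Matrix.vecMulVec_mul_vecMulVec, h1, Matrix.vecMulVec_smul]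
    calc r (f v) a
        = lam (Φ (Matrix.vecMulVec (e j) (e a)) (Φ (Matrix.vecMulVec v (e j)) w)) := rfl
      _ = lam (Φ (Matrix.vecMulVec (e j) (e a) * Matrix.vecMulVec v (e j)) w) := by
          rw [map_mul, Module.End.mul_apply]
      _ = lam (v a • w) := by rw [h2, map_smul, LinearMap.smul_apply, hEw]
      _ = v a := by rw [map_smul, hlam, smul_eq_mul, mul_one]
  · rw [hf, hf, ← Matrix.mul_vecMulVec, map_mul, Module.End.mul_apply]

end Fermat.Agent.S32.H86BLR
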