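import Fermat.Agent.S32.H86_BLRint
import Fermat.Agent.R.H86_BN
import Fermat.Agent.R.H86_Defs2
import Fermat.Agent.R.Flat.H54_ClosureSub

/-!
# S32 bridge, part ALG (helper86): from the Tate piece to the representation

`ρ` a residually absolutely irreducible representation over a local ring `𝒪`, `ρL` a matrix
representation of rank `r` all of whose levels `(𝒪/I)^r` are flat Galois modules, `(P, Q)` a
stable direct summand of rank `d > 0` on which every Galois element satisfies the characteristic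
polynomial of `ρ`.  Then `ρ` is flat: by Boston–Lenstra–Ribet over `𝒪` the piece is a module over
`M₂(𝒪)`, so `V = 𝒪²` is an equivariant direct summand of the piece, and `V / I V` is a
Galois-stable subgroup of `(𝒪/I)^r`.
-/

set_option autoImplicit false
set_option linter.unusedSectionVars false
set_option linter.unusedVariables false
set_option linter.style.haveILetI false

open Polynomial IsLocalRing

noncomputable section

namespace Fermat.Agent.S32.H86

open Fermat.Agent.R Fermat.Agent.R.H86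

/-- **From the Tate piece to the representation.** -/
theorem flat_of_piece {p : ℕ} (hp : p.Prime)
    {𝒪 : Type} [CommRing 𝒪] [IsLocalRing 𝒪] [Finite (ResidueField 𝒪)]
    (ρ : GaloisRepAdic 𝒪) (habs : ρ.residual.IsAbsolutelyIrreducible)
    {r d : ℕ} (hd : 0 < d)
    (ρL : (AlgebraicClosure ℚ ≃ₐ[ℚ] AlgebraicClosure ℚ) →* Matrix (Fin r) (Fin r) 𝒪)
    (P : Matrix (Fin r) (Fin d) 𝒪) (Q : Matrix (Fin d) (Fin r) 𝒪) (hQP : Q * P = 1)
    (ρ' : (AlgebraicClosure ℚ ≃ₐ[ℚ] AlgebraicClosure ℚ) →* Matrix (Fin d) (Fin d) 𝒪)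
    (hrel : ∀ σ, ρL σ * P = P * ρ' σ)
    (hCH : ∀ g, ρ' g * ρ' g - (LinearMap.trace 𝒪 ρ.V (ρ.ρ g)) • ρ' g
      + (LinearMap.det (ρ.ρ g)) • (1 : Matrix (Fin d) (Fin d) 𝒪) = 0)
    (hflat : ∀ I : Ideal 𝒪, Finite (𝒪 ⧸ I) →
      IsFlatGaloisModule p (Fin r → 𝒪 ⧸ I)
        (fun σ y => ((Ideal.Quotient.mk I).mapMatrix (ρL σ)).mulVec y)) :
    ρ.IsFlatAt p := by
  classical
  rw [isFlatAt_iff]
  refine ⟨inferInstance, fun I hI => ?_⟩
  let b : Module.Basis (Fin 2) 𝒪 ρ.V := Module.finBasisOfFinrankEq 𝒪 ρ.V ρ.finrank_eq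
  let T : Module.End 𝒪 ρ.V ≃ₐ[𝒪] Matrix (Fin 2) (Fin 2) 𝒪 := LinearMap.toMatrixAlgEquiv b
  let M : (AlgebraicClosure ℚ ≃ₐ[ℚ] AlgebraicClosure ℚ) →* Matrix (Fin 2) (Fin 2) 𝒪 :=
    (T : Module.End 𝒪 ρ.V →* Matrix (Fin 2) (Fin 2) 𝒪).comp ρ.ρ
  have hM : ∀ g, M g = LinearMap.toMatrix b b (ρ.ρ g) := fun g => rfl
  have hspan : Submodule.span 𝒪 (Set.range M) = ⊤ := by
    obtain ⟨g, hg⟩ := exists_eq_sum_matrix ρ habs b
    rw [eq_top_iff]
    intro Y _
    obtain ⟨c, rfl⟩ := hg Y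
    exact Submodule.sum_mem _ fun q _ =>
      Submodule.smul_mem _ _ (Submodule.subset_span ⟨g q, rfl⟩)
  have hCHM : ∀ g, ρ' g * ρ' g - (M g).trace • ρ' g
      + (M g).det • (1 : Matrix (Fin d) (Fin d) 𝒪) = 0 := by
    intro g
    rw [hM, ← LinearMap.trace_eq_matrix_trace 𝒪 b, LinearMap.det_toMatrix b]
    exact hCH g
  obtain ⟨Φ, hΦ⟩ := H86BLR.exists_algHom (B := Matrix (Fin d) (Fin d) 𝒪) (π := ρ') hspan hCHM
  haveI : Nonempty (Fin d) := ⟨⟨0, hd⟩⟩
  let Φ' : Matrix (Fin 2) (Fin 2) 𝒪 →ₐ[𝒪] Module.End 𝒪 (Fin d → 𝒪) :=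
    (Matrix.toLinAlgEquiv' : Matrix (Fin d) (Fin d) 𝒪 ≃ₐ[𝒪] _).toAlgHom.comp Φ
  have hΦ' : ∀ (A : Matrix (Fin 2) (Fin 2) 𝒪) (u : Fin d → 𝒪), Φ' A u = (Φ A).mulVec u :=
    fun A u => rfl
  obtain ⟨f, ret, hret, hf⟩ := H86BLR.exists_split_embedding Φ'
  -- the embedding of `V` into `𝒪^r` and its retraction
  let G : ρ.V →ₗ[𝒪] (Fin r → 𝒪) := (Matrix.toLin' P) ∘ₗ f ∘ₗ b.equivFun.toLinearMap
  let R : (Fin r → 𝒪) →ₗ[𝒪] ρ.V := b.equivFun.symm.toLinearMap ∘ₗ ret ∘ₗ (Matrix.toLin' Q)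
  have hG : ∀ v, G v = P.mulVec (f (b.equivFun v)) := fun v => rfl
  have hR : ∀ y, R y = b.equivFun.symm (ret (Q.mulVec y)) := fun y => rfl
  have hRG : ∀ v, R (G v) = v := by
    intro v
    rw [hR, hG, Matrix.mulVec_mulVec, hQP, Matrix.one_mulVec, hret, LinearEquiv.symm_apply_apply]
  have hGeq : ∀ σ v, G (ρ.ρ σ v) = (ρL σ).mulVec (G v) := by
    intro σ v
    have h1 : b.equivFun (ρ.ρ σ v) = (M σ).mulVec (b.equivFun v) := by
      rw [hM]
      exact (LinearMap.toMatrix_mulVec_repr b b (ρ.ρ σ) v).symm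
    rw [hG, hG, h1, hf, hΦ', hΦ, Matrix.mulVec_mulVec, Matrix.mulVec_mulVec, hrel]
  -- the level map
  let GI : ρ.V →ₗ[𝒪] (Fin r → 𝒪 ⧸ I) :=
    { toFun := fun v i => Ideal.Quotient.mk I (G v i)
      map_add' := fun v w => by
        funext i
        simp only [map_add, Pi.add_apply]
      map_smul' := fun c v => by
        funext i
        simp only [map_smul, Pi.smul_apply, smul_eq_mul, map_mul, RingHom.id_apply]
        rfl }
  have hGI : ∀ v i, GI v i = Ideal.Quotient.mk I (G v i) := fun v i => rfl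
  have hker : I • (⊤ : Submodule 𝒪 ρ.V) ≤ LinearMap.ker GI := by
    intro v hv
    rw [LinearMap.mem_ker]
    refine Submodule.smul_induction_on (p := fun x => GI x = 0) hv ?_ ?_
    · intro a ha w _
      funext i
      rw [hGI, map_smul, Pi.smul_apply, smul_eq_mul, Pi.zero_apply,
        Ideal.Quotient.eq_zero_iff_mem]
      exact I.mul_mem_right _ ha
    · intro x y hx hy
      rw [map_add, hx, hy, add_zero]
  let Gbar : (ρ.V ⧸ (I • (⊤ : Submodule 𝒪 ρ.V))) →ₗ[𝒪] (Fin r → 𝒪 ⧸ I) :=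
    (I • (⊤ : Submodule 𝒪 ρ.V)).liftQ GI hker
  have hGbar : ∀ v, Gbar (Submodule.Quotient.mk v) = GI v := fun v => rfl
  refine H54.stmt_FlatSub p hp (Fin r → 𝒪 ⧸ I) (ρ.V ⧸ (I • (⊤ : Submodule 𝒪 ρ.V)))
    (fun σ y => ((Ideal.Quotient.mk I).mapMatrix (ρL σ)).mulVec y)
    (fun σ => ρ.levelAction I σ) Gbar.toAddMonoidHom ?_ ?_ (hflat I hI)
  · -- injectivity
    rw [injective_iff_map_eq_zero]
    intro x hx
    obtain ⟨v, rfl⟩ := Submodule.Quotient.mk_surjective _ x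
    have hx' : GI v = 0 := hx
    have hmem : ∀ i, G v i ∈ I := by
      intro i
      have := congrFun hx' i
      rw [hGI, Pi.zero_apply, Ideal.Quotient.eq_zero_iff_mem] at this
      exact this
    rw [Submodule.Quotient.mk_eq_zero]
    have h1 : G v = ∑ i, G v i • (Pi.single i (1 : 𝒪) : Fin r → 𝒪) := by
      funext k
      simp [Finset.sum_apply, Pi.single_apply]
    have h2 : v = ∑ i, G v i • R (Pi.single i (1 : 𝒪)) := by
      conv_lhs => rw [← hRG v, h1]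
      simp only [map_sum, map_smul]
    rw [h2]
    exact Submodule.sum_mem _ fun i _ => Submodule.smul_mem_smul (hmem i) Submodule.mem_top
  · -- equivariance
    intro σ x
    obtain ⟨v, rfl⟩ := Submodule.Quotient.mk_surjective _ x
    show Gbar (ρ.levelAction I σ (Submodule.Quotient.mk v)) =
      ((Ideal.Quotient.mk I).mapMatrix (ρL σ)).mulVec (Gbar (Submodule.Quotient.mk v))
    have h1 : ρ.levelAction I σ (Submodule.Quotient.mk v) = Submodule.Quotient.mk (ρ.ρ σ v) := rfl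
    rw [h1, hGbar, hGbar]
    funext i
    rw [hGI, hGeq]
    simp only [Matrix.mulVec, dotProduct, map_sum, map_mul, RingHom.mapMatrix_apply,
      Matrix.map_apply, hGI]

end Fermat.Agent.S32.H86

end
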