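import Fermat.Agent.R.H86_Point
import Fermat.Agent.R.H86_Defs3
import Fermat.Agent.S31.Wiring

/-!
# S32 wiring (helper86, cluster R)

`Fermat.Agent.S32.wiring`: the frozen statement S32 (a Hecke–Galois datum of level `N`, `p ∤ N`,
is flat at `p`) from

* `Stmt_FlatPoint` : the same statement for representations over complete discrete valuation
  rings (geometric input: S19 + realisation in the Tate module of `J₀(N)`),
* `Stmt_FlatSub`, `Stmt_FlatQuot`, `Stmt_FlatPi` : finite flat group schemes over `ℤ_(p)` are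
  closed under Galois-stable subgroups, quotients and finite products (helper54),
* `Stmt_SepTc` : finitely many points of `T` separate `T` `p`-adically with uniform loss
  (helper2).

Proof: `p ^ n ∈ I`; `V ⧸ I V` is a quotient of the image of `V` in the product of the
`V_i ⧸ p ^ (n + c) V_i` over the points `ψ_i : T → 𝒪_i`, `V_i = 𝒪_i ⊗ V`.
-/

set_option autoImplicit false
set_option linter.style.haveILetI false

open Polynomial IsLocalRing
open scoped TensorProduct

namespace Fermat.Agent.S32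

open Fermat.Agent.R Fermat.Agent.R.H86

/-- Flatness passes to subquotients: if `V` maps equivariantly to a flat module `M` and
onto `Q`, and the kernel of `V → M` dies in `Q`, then `Q` is flat. -/
theorem flat_subquot (hSub : Stmt_FlatSub) (hQuot : Stmt_FlatQuot) {p : ℕ} (hp : p.Prime)
    {V M Q : Type} [AddCommGroup V] [AddCommGroup M] [AddCommGroup Q]
    (f : V →+ M) (π : V →+ Q) (hπ : Function.Surjective π) (hker : ∀ v, f v = 0 → π v = 0)
    (actV : (AlgebraicClosure ℚ ≃ₐ[ℚ] AlgebraicClosure ℚ) → V →+ V)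
    (actM : (AlgebraicClosure ℚ ≃ₐ[ℚ] AlgebraicClosure ℚ) → M → M)
    (actQ : (AlgebraicClosure ℚ ≃ₐ[ℚ] AlgebraicClosure ℚ) → Q → Q)
    (hactM0 : ∀ σ, actM σ 0 = 0)
    (hf : ∀ σ v, f (actV σ v) = actM σ (f v)) (hπ' : ∀ σ v, π (actV σ v) = actQ σ (π v))
    (hM : IsFlatGaloisModule p M actM) : IsFlatGaloisModule p Q actQ := by
  have hKstab : ∀ σ, f.ker ≤ f.ker.comap (actV σ) := by
    intro σ v hv
    have hv0 : f v = 0 := hv
    show f (actV σ v) = 0
    rw [hf, hv0, hactM0]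
  obtain ⟨act', hact'⟩ : ∃ act' : (AlgebraicClosure ℚ ≃ₐ[ℚ] AlgebraicClosure ℚ) →
      V ⧸ f.ker → V ⧸ f.ker,
      ∀ σ v, act' σ (QuotientAddGroup.mk v) = QuotientAddGroup.mk (actV σ v) :=
    ⟨fun σ => QuotientAddGroup.map f.ker f.ker (actV σ) (hKstab σ), fun σ v => rfl⟩
  have hsub : IsFlatGaloisModule p (V ⧸ f.ker) act' := by
    refine hSub p hp M (V ⧸ f.ker) actM act' (QuotientAddGroup.kerLift f)
      (QuotientAddGroup.kerLift_injective f) ?_ hM
    intro σ x
    obtain ⟨v, rfl⟩ := QuotientAddGroup.mk_surjective x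
    rw [hact', QuotientAddGroup.kerLift_mk, QuotientAddGroup.kerLift_mk, hf]
  have hKle : f.ker ≤ π.ker := fun v hv => hker v hv
  obtain ⟨π', hπ''⟩ : ∃ π' : V ⧸ f.ker →+ Q, ∀ v, π' (QuotientAddGroup.mk v) = π v :=
    ⟨QuotientAddGroup.lift f.ker π hKle, fun v => rfl⟩
  refine hQuot p hp (V ⧸ f.ker) Q act' actQ π' ?_ ?_ hsub
  · intro y
    obtain ⟨v, rfl⟩ := hπ y
    exact ⟨QuotientAddGroup.mk v, hπ'' v⟩
  · intro σ x
    obtain ⟨v, rfl⟩ := QuotientAddGroup.mk_surjective x
    rw [hact', hπ'', hπ'', hπ']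

/-- The endomorphism of `V ⧸ I V` induced by an endomorphism of `V`. -/
noncomputable def lvl {A : Type} [CommRing A] {V : Type} [AddCommGroup V] [Module A V]
    (f : Module.End A V) (I : Ideal A) :
    (V ⧸ (I • (⊤ : Submodule A V))) →ₗ[A] (V ⧸ (I • (⊤ : Submodule A V))) :=
  Submodule.mapQ _ _ f (by
    rw [← Submodule.map_le_iff_le_comap, Submodule.map_smul'']
    exact Submodule.smul_mono le_rfl le_top)

lemma levelAction_eq_lvl {A : Type} [CommRing A] [IsLocalRing A] (ρ : GaloisRepAdic A)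
    (I : Ideal A) (σ : AlgebraicClosure ℚ ≃ₐ[ℚ] AlgebraicClosure ℚ) :
    ρ.levelAction I σ = lvl (ρ.ρ σ) I := rfl

lemma lvl_mk {A : Type} [CommRing A] {V : Type} [AddCommGroup V] [Module A V]
    (f : Module.End A V) (I : Ideal A) (v : V) :
    lvl f I (Submodule.Quotient.mk v) = Submodule.Quotient.mk (f v) := rfl

/-- **Abstract S32 wiring.**  If finitely many base changes `B i ⊗ V` are flat modulo `J i`
and the ideals `J i` control `I`, then `V` is flat modulo `I`. -/
theorem flat_of_points (hSub : Stmt_FlatSub) (hQuot : Stmt_FlatQuot) (hPi : Stmt_FlatPi)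
    {p : ℕ} (hp : p.Prime)
    {T : Type} [CommRing T] {V : Type} [AddCommGroup V] [Module T V]
    {ι : Type} [Fintype ι] (b : Module.Basis ι T V)
    (r : (AlgebraicClosure ℚ ≃ₐ[ℚ] AlgebraicClosure ℚ) → Module.End T V) (I : Ideal T)
    (n : ℕ) (B : Fin n → Type) [∀ i, CommRing (B i)] [∀ i, Algebra T (B i)]
    (J : ∀ i, Ideal (B i))
    (h1 : ∀ i, IsFlatGaloisModule p ((B i ⊗[T] V) ⧸ (J i • (⊤ : Submodule (B i) (B i ⊗[T] V))))
      (fun σ => lvl ((r σ).baseChange (B i)) (J i)))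
    (h2 : ∀ t : T, (∀ i, algebraMap T (B i) t ∈ J i) → t ∈ I) :
    IsFlatGaloisModule p (V ⧸ (I • (⊤ : Submodule T V))) (fun σ => lvl (r σ) I) := by
  classical
  -- the product
  have hprod := hPi p hp n
    (fun i => (B i ⊗[T] V) ⧸ (J i • (⊤ : Submodule (B i) (B i ⊗[T] V))))
    (fun i σ => lvl ((r σ).baseChange (B i)) (J i)) h1
  -- the map from `V`
  obtain ⟨f, hf⟩ : ∃ f : V →+ (∀ i, (B i ⊗[T] V) ⧸ (J i • (⊤ : Submodule (B i) (B i ⊗[T] V)))),
      ∀ v i, f v i = Submodule.Quotient.mk ((1 : B i) ⊗ₜ[T] v) :=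
    ⟨AddMonoidHom.pi fun i =>
      ((Submodule.mkQ (J i • (⊤ : Submodule (B i) (B i ⊗[T] V)))).toAddMonoidHom).comp
        ((TensorProduct.mk T (B i) V 1).toAddMonoidHom), fun v i => rfl⟩
  have hequiv : ∀ σ v, f (r σ v) = fun i => lvl ((r σ).baseChange (B i)) (J i) (f v i) := by
    intro σ v
    funext i
    rw [hf, hf, lvl_mk, LinearMap.baseChange_tmul]
  -- the kernel is contained in `I V`
  have hker : ∀ v, f v = 0 → v ∈ I • (⊤ : Submodule T V) := by
    intro v hv
    have hcoord : ∀ j, b.repr v j ∈ I := by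
      intro j
      apply h2
      intro i
      have h0 : f v i = 0 := by rw [hv]; rfl
      rw [hf] at h0
      have h0' := (Submodule.Quotient.mk_eq_zero _).1 h0
      have h3 := repr_mem_of_mem_smul_top (Algebra.TensorProduct.basis (B i) b) (J i) h0' j
      rwa [Algebra.TensorProduct.basis_repr_tmul, one_smul, Finsupp.mapRange_apply] at h3
    rw [← b.sum_repr v]
    exact Submodule.sum_mem _ fun j _ => Submodule.smul_mem_smul (hcoord j) trivial
  refine flat_subquot hSub hQuot hp f (Submodule.mkQ (I • (⊤ : Submodule T V))).toAddMonoidHom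
    (Submodule.mkQ_surjective _) ?_ (fun σ => (r σ).toAddMonoidHom)
    (fun σ x i => lvl ((r σ).baseChange (B i)) (J i) (x i)) (fun σ => lvl (r σ) I)
    ?_ ?_ ?_ hprod
  · intro v hv
    exact (Submodule.Quotient.mk_eq_zero _).2 (hker v hv)
  · intro σ
    funext i
    exact map_zero _
  · intro σ v
    exact hequiv σ v
  · intro σ v
    rfl


/-- A nonzero principal ideal of a discrete valuation ring with finite residue field has
finite quotient. -/
lemma finite_quotient_span_pow {R : Type} [CommRing R] [IsDomain R] [IsDiscreteValuationRing R]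
    [Finite (ResidueField R)] {a : R} (ha : a ≠ 0) : Finite (R ⧸ Ideal.span {a}) := by
  obtain ⟨M, hM⟩ := exists_pow_le_span ha
  haveI : Finite (R ⧸ maximalIdeal R) := inferInstanceAs (Finite (ResidueField R))
  haveI : Finite (R ⧸ maximalIdeal R ^ M) :=
    Ideal.finite_quotient_pow (IsNoetherian.noetherian _) M
  exact Finite.of_surjective (Ideal.Quotient.factor hM) (Ideal.Quotient.factor_surjective hM)

/-- In a local ring, an ideal with finite quotient contains a power of every element of the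
maximal ideal. -/
lemma exists_pow_mem_of_finite_quotient {T : Type} [CommRing T] [IsLocalRing T] (I : Ideal T)
    [Finite (T ⧸ I)] {x : T} (hx : x ∈ maximalIdeal T) : ∃ n : ℕ, x ^ n ∈ I := by
  obtain ⟨a, b, hab, h⟩ := Finite.exists_ne_map_eq_of_infinite
    (fun n : ℕ => (Ideal.Quotient.mk I (x ^ n)))
  wlog hlt : a < b generalizing a b
  · exact this b a (Ne.symm hab) h.symm (lt_of_le_of_ne (not_lt.1 hlt) (Ne.symm hab))
  have h1 : x ^ a - x ^ b ∈ I := by
    rw [← Ideal.Quotient.eq_zero_iff_mem, map_sub, sub_eq_zero]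
    exact h
  have h2 : x ^ a - x ^ b = x ^ a * (1 - x ^ (b - a)) := by
    rw [mul_sub, mul_one, ← pow_add, Nat.add_sub_cancel' hlt.le]
  have h3 : IsUnit (1 - x ^ (b - a)) := by
    apply isUnit_one_sub_self_of_mem_nonunits
    have : x ^ (b - a) ∈ maximalIdeal T :=
      Ideal.pow_mem_of_mem _ hx _ (Nat.sub_pos_of_lt hlt)
    exact (mem_maximalIdeal _).1 this
  refine ⟨a, ?_⟩
  rw [h2] at h1
  have := I.mul_mem_right (↑h3.unit⁻¹ : T) h1
  rwa [mul_assoc, IsUnit.mul_val_inv, mul_one] at this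

variable {p : ℕ} {N : ℕ} [NeZero N] {S : Finset ℕ}
  {𝒪 : Type} [CommRing 𝒪] [IsDomain 𝒪] [IsDiscreteValuationRing 𝒪]
  [IsAdicComplete (IsLocalRing.maximalIdeal 𝒪) 𝒪]
  {θ : CuspForm.heckeAlgebra N 2 (↑S : Set ℕ) →+* IsLocalRing.ResidueField 𝒪}
  {T : Type} [CommRing T] [IsLocalRing T] [IsNoetherianRing T]
  [IsAdicComplete (IsLocalRing.maximalIdeal T) T] [Algebra 𝒪 T] [IsLocalHom (algebraMap 𝒪 T)]
  [Module.Finite 𝒪 T] [Module.Free 𝒪 T]

/-- S32 from its version over discrete valuation rings and the closure properties of flat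
Galois modules. -/
theorem wiring (hFP : Stmt_FlatPoint) (hSub : Stmt_FlatSub) (hQuot : Stmt_FlatQuot)
    (hPi : Stmt_FlatPi) (hSep : Stmt_SepTc)
    [Finite (IsLocalRing.ResidueField 𝒪)] [CharZero 𝒪]
    (hp : p.Prime) (hp2 : p ≠ 2) (hp𝒪 : (p : 𝒪) ∈ IsLocalRing.maximalIdeal 𝒪) (hpN : ¬ p ∣ N)
    (hpS : p ∈ S) (hNS : ∀ q : ℕ, q.Prime → q ∣ N → q ∈ S)
    (H : CuspForm.HeckeGaloisRepDatum N (↑S : Set ℕ) 𝒪 θ T) :
    H.ρ.IsFlatAt p := by
  classical
  rw [isFlatAt_iff]
  have hpT : (p : T) ∈ maximalIdeal T := natCast_mem_maximalIdeal_of_algebra hp𝒪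
  refine ⟨?_, ?_⟩
  · refine Finite.of_surjective (IsLocalRing.ResidueField.map (algebraMap 𝒪 T)) ?_
    intro y
    obtain ⟨a, ha⟩ := H.residue_surjective y
    exact ⟨residue 𝒪 a, by rw [← ha]; rfl⟩
  · intro I hI
    obtain ⟨r, P, c, hc⟩ := hSep N S 𝒪 θ T hNS H p hp hp𝒪
    obtain ⟨n, hn⟩ := exists_pow_mem_of_finite_quotient I hpT
    letI : ∀ i, Algebra T (P i).O := fun i => (P i).ψ.toAlgebra
    let b : Module.Basis (Fin 2) T H.ρ.V := Module.finBasisOfFinrankEq T H.ρ.V H.ρ.finrank_eq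
    have hp𝒪' : ∀ i, (p : (P i).O) ∈ maximalIdeal (P i).O := by
      intro i
      have h1 : (p : (P i).O) = (P i).ψ (p : T) := by rw [map_natCast]
      rw [h1]
      haveI := (P i).isLocalHom
      exact (mem_maximalIdeal _).2 (map_nonunit (P i).ψ _ ((mem_maximalIdeal _).1 hpT))
    have hflat : ∀ i, (H.ρ.baseChangeAlong (P i).ψ (P i).isLocalHom).IsFlatAt p := fun i =>
      hFP p N S (P i).O hp hp2 (hp𝒪' i) hpN hpS hNS ((P i).ψ.comp H.π)
        (H.ρ.baseChangeAlong (P i).ψ (P i).isLocalHom)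
        (hasFrobCharpoly_baseChangeAlong (P i).ψ (P i).isLocalHom H.π H.ρ
          (hasFrobCharpoly_datum H))
        (residual_absIrr_baseChangeAlong (P i).ψ (P i).isLocalHom H.ρ H.residual_absIrr)
    have hfin : ∀ i, Finite ((P i).O ⧸ Ideal.span {((p : (P i).O)) ^ (n + c)}) := fun i =>
      finite_quotient_span_pow (pow_ne_zero _ (Nat.cast_ne_zero.2 hp.ne_zero))
    refine flat_of_points hSub hQuot hPi hp b (fun σ => H.ρ.ρ σ) I r (fun i => (P i).O)
      (fun i => Ideal.span {((p : (P i).O)) ^ (n + c)}) ?_ ?_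
    · intro i
      exact ((isFlatAt_iff _ _).1 (hflat i)).2 _ (hfin i)
    · intro t ht
      have h1 := hc n t ht
      obtain ⟨u, rfl⟩ := Ideal.mem_span_singleton.1 h1
      exact I.mul_mem_right _ hn

end Fermat.Agent.S32
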